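import Fermat.Agent.S29.M4b.Defs
import Fermat.Agent.S24.Deg.H648JBound
import Fermat.Agent.S24.Deg.H457_Bridge
import Fermat.Agent.S24.H624.Moebius

/-!
# S29 / M4b / K4-HECKE (helper989), part 1: integer matrices of positive determinant acting on `ℍ`

* `KH_glInt M hM : GL (Fin 2) ℝ` for an integer matrix `M` with `0 < det M`;
* `KH_im_le` (height lemma): `im (γ • M • τ) ≤ det M * im τ` for `im τ ≥ 1`, `γ ∈ SL₂(ℤ)`;
* `KH_expGrowth` : for `G ∈ goodRing N`, `τ ↦ G (M • τ)` has at most exponential growth;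
* `KH_act ℓ i` : the Möbius action of the representatives `heckeRep ℓ i` of `DefsM`, with the
  equivariance `KH_act_factor` coming from `IsHeckeFactor`.
-/

set_option autoImplicit false
set_option linter.style.haveILetI false
set_option linter.unusedSectionVars false

noncomputable section

open UpperHalfPlane ModularGroup CongruenceSubgroup
open scoped MatrixGroups Manifold Modular Real

namespace Fermat.Agent.S29.H989

open Fermat.Agent.S24 Fermat.Agent.S24.H648 Fermat.Agent.S29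

/-! ### Integer matrices of positive determinant -/

theorem KH_det_map (M : Matrix (Fin 2) (Fin 2) ℤ) :
    (M.map (Int.cast : ℤ → ℝ)).det = ((M.det : ℤ) : ℝ) := by
  rw [Matrix.det_fin_two, Matrix.det_fin_two]
  simp [Matrix.map_apply]

/-- The element of `GL₂(ℝ)` attached to an integer matrix of positive determinant. -/
def KH_glInt (M : Matrix (Fin 2) (Fin 2) ℤ) (hM : 0 < M.det) : GL (Fin 2) ℝ :=
  Matrix.GeneralLinearGroup.mkOfDetNeZero (M.map (Int.cast : ℤ → ℝ)) (by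
    rw [KH_det_map]
    exact_mod_cast hM.ne')

theorem KH_glInt_val (M : Matrix (Fin 2) (Fin 2) ℤ) (hM : 0 < M.det) :
    (KH_glInt M hM).val = M.map (Int.cast : ℤ → ℝ) := rfl

theorem KH_glInt_apply (M : Matrix (Fin 2) (Fin 2) ℤ) (hM : 0 < M.det) (i j : Fin 2) :
    (KH_glInt M hM) i j = ((M i j : ℤ) : ℝ) := rfl

theorem KH_glInt_det (M : Matrix (Fin 2) (Fin 2) ℤ) (hM : 0 < M.det) :
    (KH_glInt M hM).det.val = ((M.det : ℤ) : ℝ) := by
  rw [Matrix.GeneralLinearGroup.val_det_apply, KH_glInt_val, KH_det_map]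

theorem KH_glInt_det_pos (M : Matrix (Fin 2) (Fin 2) ℤ) (hM : 0 < M.det) :
    0 < (KH_glInt M hM).det.val := by
  rw [KH_glInt_det]
  exact_mod_cast hM

theorem KH_det_mul_pos {M M' : Matrix (Fin 2) (Fin 2) ℤ} (hM : 0 < M.det) (hM' : 0 < M'.det) :
    0 < (M * M').det := by
  rw [Matrix.det_mul]
  exact mul_pos hM hM'

theorem KH_glInt_mul (M M' : Matrix (Fin 2) (Fin 2) ℤ) (hM : 0 < M.det) (hM' : 0 < M'.det) :
    KH_glInt (M * M') (KH_det_mul_pos hM hM') = KH_glInt M hM * KH_glInt M' hM' := by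
  apply Units.ext
  rw [Units.val_mul, KH_glInt_val, KH_glInt_val, KH_glInt_val]
  exact Matrix.map_mul (f := Int.castRingHom ℝ)

theorem KH_glInt_congr {M M' : Matrix (Fin 2) (Fin 2) ℤ} (e : M = M') (hM : 0 < M.det)
    (hM' : 0 < M'.det) : KH_glInt M hM = KH_glInt M' hM' := by
  subst e; rfl

theorem KH_det_SL_pos (γ : SL(2, ℤ)) : 0 < (γ : Matrix (Fin 2) (Fin 2) ℤ).det := by
  rw [γ.det_coe]; exact one_pos

theorem KH_glInt_SL (γ : SL(2, ℤ)) :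
    KH_glInt (γ : Matrix (Fin 2) (Fin 2) ℤ) (KH_det_SL_pos γ) = (γ : GL (Fin 2) ℝ) := by
  apply Units.ext
  ext i j
  rfl

theorem KH_glInt_SL_smul (γ : SL(2, ℤ)) (τ : ℍ) :
    KH_glInt (γ : Matrix (Fin 2) (Fin 2) ℤ) (KH_det_SL_pos γ) • τ = γ • τ := by
  rw [KH_glInt_SL, sl_moeb]

/-- Height lemma, basic form. -/
theorem KH_im_le_aux (M : Matrix (Fin 2) (Fin 2) ℤ) (hM : 0 < M.det) (τ : ℍ) (hτ : 1 ≤ τ.im) :
    (KH_glInt M hM • τ).im ≤ ((M.det : ℤ) : ℝ) * τ.im := by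
  rw [UpperHalfPlane.im_smul_eq_div_normSq, KH_glInt_det]
  have hden : denom (KH_glInt M hM) τ = ((M 1 0 : ℤ) : ℂ) * τ + ((M 1 1 : ℤ) : ℂ) := by
    simp [denom, KH_glInt_apply]
  have hne : denom (KH_glInt M hM) τ ≠ 0 := denom_ne_zero _ τ
  have hge : 1 ≤ Complex.normSq (denom (KH_glInt M hM) τ) := by
    rw [hden] at hne ⊢
    exact one_le_normSq_int_linear _ _ τ hτ hne
  have hdet : (0 : ℝ) < ((M.det : ℤ) : ℝ) := by exact_mod_cast hM
  rw [abs_of_pos hdet]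
  have hnn : (0 : ℝ) ≤ ((M.det : ℤ) : ℝ) * τ.im := by
    have := τ.im_pos
    positivity
  exact div_le_self hnn hge

/-- **Height lemma**: an integer matrix of determinant `d > 0` followed by any element of
`SL₂(ℤ)` maps `{im τ ≥ 1}` into `{im ≤ d · im τ}`. -/
theorem KH_im_le (M : Matrix (Fin 2) (Fin 2) ℤ) (hM : 0 < M.det) (γ : SL(2, ℤ)) (τ : ℍ)
    (hτ : 1 ≤ τ.im) : (γ • (KH_glInt M hM • τ)).im ≤ ((M.det : ℤ) : ℝ) * τ.im := by
  have h1 : γ • (KH_glInt M hM • τ)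
      = KH_glInt ((γ : Matrix (Fin 2) (Fin 2) ℤ) * M) (KH_det_mul_pos (KH_det_SL_pos γ) hM) • τ := by
    rw [KH_glInt_mul _ _ (KH_det_SL_pos γ) hM, mul_smul, KH_glInt_SL_smul]
  rw [h1]
  have h2 := KH_im_le_aux _ (KH_det_mul_pos (KH_det_SL_pos γ) hM) τ hτ
  rwa [Matrix.det_mul, γ.det_coe, one_mul] at h2

/-! ### Growth -/

theorem KH_exp_mono {C C' : ℝ} {m m' : ℕ} (hC : C ≤ C') (hC0 : 0 ≤ C') (hm : m ≤ m') {y : ℝ}
    (hy : 0 ≤ y) : C * Real.exp (2 * π * m * y) ≤ C' * Real.exp (2 * π * m' * y) := by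
  have h1 : Real.exp (2 * π * m * y) ≤ Real.exp (2 * π * m' * y) := by
    apply Real.exp_le_exp.mpr
    have : (m : ℝ) ≤ m' := by exact_mod_cast hm
    have hpi := Real.pi_pos
    gcongr
  calc C * Real.exp (2 * π * m * y) ≤ C' * Real.exp (2 * π * m * y) := by gcongr
    _ ≤ C' * Real.exp (2 * π * m' * y) := by gcongr

variable {N : ℕ} [NeZero N]

/-- A uniform bound on the fundamental domain for all `SL₂(ℤ)`-translates of a good function. -/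
theorem KH_fd_bound {G : ℍ → ℂ} (hG : G ∈ goodRing N) :
    ∃ (C : ℝ) (m : ℕ), 0 ≤ C ∧ ∀ (g : SL(2, ℤ)) (w : ℍ), w ∈ 𝒟 →
      ‖G (g • w)‖ ≤ C * Real.exp (2 * π * m * w.im) := by
  classical
  haveI : Finite (SL(2, ℤ) ⧸ Gamma0 N) := inferInstanceAs (Finite (XX N))
  letI : Fintype (SL(2, ℤ) ⧸ Gamma0 N) := Fintype.ofFinite _
  have hx : ∀ x : SL(2, ℤ) ⧸ Gamma0 N, ∃ (C : ℝ) (m : ℕ), 0 ≤ C ∧ ∀ w : ℍ, w ∈ 𝒟 →
      ‖conj N G x w‖ ≤ C * Real.exp (2 * π * m * w.im) := by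
    intro x
    obtain ⟨hmd, C, m, hC⟩ := conj_mem_niceRing hG x
    have hO : conj N G x =O[Filter.comap UpperHalfPlane.im Filter.atTop]
        fun τ : ℍ => Real.exp (2 * π * (m : ℝ) * τ.im) := by
      apply Asymptotics.IsBigO.of_bound C
      rw [Filter.eventually_comap, Filter.eventually_atTop]
      refine ⟨1, fun y hy τ hτy => ?_⟩
      rw [Real.norm_of_nonneg (Real.exp_pos _).le]
      exact hC τ (by rw [hτy]; exact hy)
    obtain ⟨C', hC'⟩ := exists_bound_fd_of_isBigO_exp hmd.continuous m hO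
    refine ⟨|C'|, m, abs_nonneg _, fun w hw => (hC' w hw).trans ?_⟩
    exact KH_exp_mono (le_abs_self _) (abs_nonneg _) le_rfl w.im_pos.le
  choose C m hC0 hC using hx
  refine ⟨∑ x, C x, ∑ x, m x, Finset.sum_nonneg (fun x _ => hC0 x), fun g w hw => ?_⟩
  have h1 : G (g • w) = conj N G ((g⁻¹ : SL(2, ℤ)) : SL(2, ℤ) ⧸ Gamma0 N) w := by
    rw [conj_mk hG.2.1, inv_inv]
  rw [h1]
  refine (hC _ w hw).trans ?_
  exact KH_exp_mono (Finset.single_le_sum (fun x _ => hC0 x) (Finset.mem_univ _))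
    (Finset.sum_nonneg (fun x _ => hC0 x))
    (Finset.single_le_sum (f := m) (fun x _ => Nat.zero_le _) (Finset.mem_univ _)) w.im_pos.le

/-- **Growth**: for a good function `G` and an integer matrix `M` of positive determinant,
`τ ↦ G (M • τ)` has at most exponential growth. -/
theorem KH_expGrowth {G : ℍ → ℂ} (hG : G ∈ goodRing N) (M : Matrix (Fin 2) (Fin 2) ℤ)
    (hM : 0 < M.det) : ExpGrowth (fun τ => G (KH_glInt M hM • τ)) := by
  obtain ⟨C, m, hC0, hC⟩ := KH_fd_bound hG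
  refine ⟨C, m * M.det.toNat, fun τ hτ => ?_⟩
  obtain ⟨γ, hγ⟩ := ModularGroup.exists_smul_mem_fd (KH_glInt M hM • τ)
  have h1 : G (KH_glInt M hM • τ) = G (γ⁻¹ • (γ • (KH_glInt M hM • τ))) := by
    rw [inv_smul_smul]
  show ‖G (KH_glInt M hM • τ)‖ ≤ _
  rw [h1]
  refine (hC γ⁻¹ _ hγ).trans ?_
  have h2 := KH_im_le M hM γ τ hτ
  have h3 : ((m * M.det.toNat : ℕ) : ℝ) = (m : ℝ) * ((M.det : ℤ) : ℝ) := by
    push_cast
    congr 1
    have : ((M.det.toNat : ℕ) : ℤ) = M.det := Int.toNat_of_nonneg hM.le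
    exact_mod_cast this
  apply mul_le_mul_of_nonneg_left _ hC0
  apply Real.exp_le_exp.mpr
  rw [h3]
  have hpi := Real.pi_pos
  have hm0 : (0 : ℝ) ≤ (m : ℝ) := Nat.cast_nonneg m
  calc 2 * π * (m : ℝ) * (γ • (KH_glInt M hM • τ)).im
      ≤ 2 * π * (m : ℝ) * (((M.det : ℤ) : ℝ) * τ.im) := by gcongr
    _ = 2 * π * ((m : ℝ) * ((M.det : ℤ) : ℝ)) * τ.im := by ring

/-- All `SL₂(ℤ)`-translates of `τ ↦ G (M • τ)` have at most exponential growth. -/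
theorem KH_expGrowth_smul {G : ℍ → ℂ} (hG : G ∈ goodRing N) (M : Matrix (Fin 2) (Fin 2) ℤ)
    (hM : 0 < M.det) (g : SL(2, ℤ)) : ExpGrowth (fun τ => G (KH_glInt M hM • (g • τ))) := by
  have h := KH_expGrowth hG (M * (g : Matrix (Fin 2) (Fin 2) ℤ))
    (KH_det_mul_pos hM (KH_det_SL_pos g))
  have e : (fun τ => G (KH_glInt M hM • (g • τ)))
      = fun τ => G (KH_glInt (M * (g : Matrix (Fin 2) (Fin 2) ℤ))
          (KH_det_mul_pos hM (KH_det_SL_pos g)) • τ) := by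
    funext τ
    rw [KH_glInt_mul _ _ hM (KH_det_SL_pos g), mul_smul, KH_glInt_SL_smul]
  rw [e]
  exact h

/-! ### The ring of holomorphic functions with all translates of exponential growth -/

/-- Holomorphic functions on `ℍ` all of whose `SL₂(ℤ)`-translates have at most exponential
growth at `i∞` (no invariance required). -/
def KH_growRing : Subalgebra ℂ (ℍ → ℂ) where
  carrier := {f | MDifferentiable 𝓘(ℂ) 𝓘(ℂ) f ∧ ∀ g : SL(2, ℤ), ExpGrowth (fun τ => f (g • τ))}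
  mul_mem' := by
    rintro f g ⟨h1, h3⟩ ⟨h1', h3'⟩
    exact ⟨h1.mul h1', fun g => (h3 g).mul (h3' g)⟩
  add_mem' := by
    rintro f g ⟨h1, h3⟩ ⟨h1', h3'⟩
    exact ⟨h1.add h1', fun g => (h3 g).add (h3' g)⟩
  algebraMap_mem' := fun c => ⟨mdifferentiable_const, fun _ => expGrowth_const c⟩

theorem KH_mem_growRing {f : ℍ → ℂ} :
    f ∈ KH_growRing ↔ MDifferentiable 𝓘(ℂ) 𝓘(ℂ) f ∧
      ∀ g : SL(2, ℤ), ExpGrowth (fun τ => f (g • τ)) := Iff.rfl

theorem KH_comp_mem_growRing {G : ℍ → ℂ} (hG : G ∈ goodRing N) (M : Matrix (Fin 2) (Fin 2) ℤ)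
    (hM : 0 < M.det) : (fun τ => G (KH_glInt M hM • τ)) ∈ KH_growRing :=
  ⟨H624.mdiff_comp_smul (KH_glInt_det_pos M hM) hG.1, fun g => KH_expGrowth_smul hG M hM g⟩

/-! ### The Hecke representatives -/

theorem KH_det_heckeRep (ℓ : ℕ) (i : Option (Fin ℓ)) : (heckeRep ℓ i).det = (ℓ : ℤ) := by
  cases i <;> simp [heckeRep, Matrix.det_fin_two]

theorem KH_det_heckeRep_pos (ℓ : ℕ) [NeZero ℓ] (i : Option (Fin ℓ)) : 0 < (heckeRep ℓ i).det := by
  rw [KH_det_heckeRep]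
  exact_mod_cast Nat.pos_of_ne_zero (NeZero.ne ℓ)

/-- The Möbius action of the representative `heckeRep ℓ i` on `ℍ`. -/
def KH_act (ℓ : ℕ) [NeZero ℓ] (i : Option (Fin ℓ)) (τ : ℍ) : ℍ :=
  KH_glInt (heckeRep ℓ i) (KH_det_heckeRep_pos ℓ i) • τ

theorem KH_act_none_coe (ℓ : ℕ) [NeZero ℓ] (τ : ℍ) :
    (KH_act ℓ none τ : ℂ) = ((ℓ : ℂ) * τ + ((0 : ℤ) : ℂ)) / ((1 : ℕ) : ℂ) := by
  unfold KH_act
  rw [coe_smul_of_det_pos (KH_glInt_det_pos _ _)]
  simp [num, denom, KH_glInt_apply, heckeRep]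

theorem KH_act_some_coe (ℓ : ℕ) [NeZero ℓ] (b : Fin ℓ) (τ : ℍ) :
    (KH_act ℓ (some b) τ : ℂ) = (((1 : ℕ) : ℂ) * τ + (((b : ℕ) : ℤ) : ℂ)) / (ℓ : ℂ) := by
  unfold KH_act
  rw [coe_smul_of_det_pos (KH_glInt_det_pos _ _)]
  simp [num, denom, KH_glInt_apply, heckeRep]

/-- Equivariance: `αᵢ γ = δ αⱼ` on `ℍ`. -/
theorem KH_act_factor {ℓ : ℕ} [NeZero ℓ] {γ δ : G0 N} {i j : Option (Fin ℓ)}
    (h : IsHeckeFactor ℓ γ i (j, δ)) (τ : ℍ) :
    KH_act ℓ i ((γ : SL(2, ℤ)) • τ) = (δ : SL(2, ℤ)) • KH_act ℓ j τ := by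
  unfold KH_act
  rw [← KH_glInt_SL_smul (γ : SL(2, ℤ)), ← KH_glInt_SL_smul (δ : SL(2, ℤ)), ← mul_smul,
    ← mul_smul, ← KH_glInt_mul, ← KH_glInt_mul]
  congr 1
  exact KH_glInt_congr h _ _

theorem KH_comp_act_mem_growRing {G : ℍ → ℂ} (hG : G ∈ goodRing N) (ℓ : ℕ) [NeZero ℓ]
    (i : Option (Fin ℓ)) : (fun τ => G (KH_act ℓ i τ)) ∈ KH_growRing :=
  KH_comp_mem_growRing hG _ _

theorem KH_mdiff_comp_act {U : ℍ → ℂ} (hU : MDifferentiable 𝓘(ℂ) 𝓘(ℂ) U) (ℓ : ℕ) [NeZero ℓ]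
    (i : Option (Fin ℓ)) : MDifferentiable 𝓘(ℂ) 𝓘(ℂ) (fun τ => U (KH_act ℓ i τ)) :=
  H624.mdiff_comp_smul (KH_glInt_det_pos _ _) hU

/-- Products of holomorphic functions are holomorphic. -/
theorem KH_mdiff_prod {ι : Type*} (s : Finset ι) (F : ι → ℍ → ℂ)
    (hF : ∀ i ∈ s, MDifferentiable 𝓘(ℂ) 𝓘(ℂ) (F i)) :
    MDifferentiable 𝓘(ℂ) 𝓘(ℂ) (fun τ => ∏ i ∈ s, F i τ) := by
  classical
  induction s using Finset.induction_on with
  | empty => simpa using (mdifferentiable_const : MDifferentiable 𝓘(ℂ) 𝓘(ℂ) (fun _ : ℍ => (1 : ℂ)))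
  | insert a s ha ih =>
    have h1 := hF a (Finset.mem_insert_self a s)
    have h2 := ih (fun i hi => hF i (Finset.mem_insert_of_mem hi))
    have e : (fun τ => ∏ i ∈ insert a s, F i τ) = (F a) * (fun τ => ∏ i ∈ s, F i τ) := by
      funext τ
      rw [Finset.prod_insert ha]
      rfl
    rw [e]
    exact h1.mul h2

/-- **Goodness of the Hecke product**: if `G` is good of level `N` then so is
`τ ↦ ∏ᵢ G (αᵢ τ)`. -/
theorem KH_prod_mem_goodRing {ℓ : ℕ} [NeZero ℓ]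
    (hfac : ∀ γ : G0 N, ∃ (pm : Equiv.Perm (Option (Fin ℓ))) (δ : Option (Fin ℓ) → G0 N),
      ∀ i, IsHeckeFactor ℓ γ i (pm i, δ i))
    {G : ℍ → ℂ} (hG : G ∈ goodRing N) :
    (fun τ => ∏ i : Option (Fin ℓ), G (KH_act ℓ i τ)) ∈ goodRing N := by
  have hmem : (∏ i : Option (Fin ℓ), fun τ => G (KH_act ℓ i τ)) ∈ KH_growRing :=
    Subalgebra.prod_mem _ (fun i _ => KH_comp_act_mem_growRing hG ℓ i)
  have e : (∏ i : Option (Fin ℓ), fun τ => G (KH_act ℓ i τ))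
      = fun τ => ∏ i : Option (Fin ℓ), G (KH_act ℓ i τ) := by
    funext τ
    rw [Finset.prod_apply]
  rw [e] at hmem
  refine ⟨hmem.1, fun γ hγ τ => ?_, hmem.2⟩
  obtain ⟨pm, δ, hpm⟩ := hfac ⟨γ, hγ⟩
  have h1 : ∀ i, G (KH_act ℓ i (γ • τ)) = G (KH_act ℓ (pm i) τ) := by
    intro i
    have := KH_act_factor (hpm i) τ
    rw [show ((⟨γ, hγ⟩ : G0 N) : SL(2, ℤ)) = γ from rfl] at this
    rw [this]
    exact hG.2.1 _ (δ i).2 _
  show ∏ i : Option (Fin ℓ), G (KH_act ℓ i (γ • τ)) = ∏ i : Option (Fin ℓ), G (KH_act ℓ i τ)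
  rw [Finset.prod_congr rfl (fun i _ => h1 i)]
  exact Equiv.prod_comp pm (fun j => G (KH_act ℓ j τ))

end Fermat.Agent.S29.H989

end
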