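import Fermat.Agent.S29.H989.KHAct
import Fermat.Agent.S24.Mod.H708QSubst
import Fermat.Agent.S37.H819.NormId
import Fermat.Agent.S29.H882.GoodQ

/-!
# S29 / M4b / K4-HECKE (helper989), part 2: the analytic Kronecker norm (KRON-AN)

If `G` has `q`-expansion `g` at `i∞` and `H τ = ∏ᵢ G (αᵢ τ)` (product over the Hecke
representatives `αᵢ = heckeRep ℓ i`) is `1`-periodic and meromorphic at `i∞`, then the
`q`-expansion of `H` is the formal Kronecker norm `H400.kronNorm ℓ g = V_ℓ g · det (secMat ℓ g)`.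
-/

set_option autoImplicit false
set_option linter.style.haveILetI false
set_option linter.unusedSectionVars false

noncomputable section

open UpperHalfPlane ModularGroup CongruenceSubgroup ModularCurve
open scoped MatrixGroups Manifold Modular Real

namespace Fermat.Agent.S29.H989

open Fermat.Agent.S24 Fermat.Agent.S24.H648 Fermat.Agent.S24.H708 Fermat.Agent.S29

variable {ℓ : ℕ} [NeZero ℓ]

theorem KH_hasQExp_none {G : ℍ → ℂ} {g : LaurentSeries ℂ} (hG : HasQExp 1 G g) :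
    HasQExp ℓ (fun τ => G (KH_act ℓ none τ)) (qExpand ℂ ℓ (qExpand ℂ ℓ g)) := by
  haveI : NeZero (ℓ * ℓ) := ⟨mul_ne_zero (NeZero.ne ℓ) (NeZero.ne ℓ)⟩
  have h := hG.comp_affine (h' := ℓ) (a := ℓ) (d := 1) (NeZero.ne ℓ) one_ne_zero 0 (ℓ * ℓ)
    (by ring) (KH_act ℓ none) (KH_act_none_coe ℓ)
  have h1 : twistFactor 0 1 1 = 1 := by simp [twistFactor]
  have h2 : twist (twistFactor 0 1 1) (twistFactor_ne_zero 0 1 1) g = g := by
    ext n; simp [h1]
  rw [h2, ← qExpand_qExpand] at h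
  exact h

theorem KH_hasQExp_some {G : ℍ → ℂ} {g : LaurentSeries ℂ} (hG : HasQExp 1 G g) (b : Fin ℓ) :
    HasQExp ℓ (fun τ => G (KH_act ℓ (some b) τ))
      (twist (twistFactor ((b : ℕ) : ℤ) ℓ 1) (twistFactor_ne_zero _ _ _) g) := by
  have h := hG.comp_affine (h' := ℓ) (a := 1) (d := ℓ) one_ne_zero (NeZero.ne ℓ)
    ((b : ℕ) : ℤ) 1 (by ring) (KH_act ℓ (some b)) (KH_act_some_coe ℓ b)
  rwa [qExpand_one_apply] at h

theorem KH_hasQExp_prod {h : ℕ} [NeZero h] {ι : Type*} (s : Finset ι) (F : ι → ℍ → ℂ)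
    (φ : ι → LaurentSeries ℂ) (hF : ∀ i ∈ s, HasQExp h (F i) (φ i)) :
    HasQExp h (fun τ => ∏ i ∈ s, F i τ) (∏ i ∈ s, φ i) := by
  classical
  induction s using Finset.induction_on with
  | empty =>
    simp only [Finset.prod_empty]
    exact HasQExp.one h
  | insert a s ha ih =>
    have h1 := hF a (Finset.mem_insert_self a s)
    have h2 := ih (fun i hi => hF i (Finset.mem_insert_of_mem hi))
    have e : (fun τ => ∏ i ∈ insert a s, F i τ) = (F a) * (fun τ => ∏ i ∈ s, F i τ) := by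
      funext τ
      rw [Finset.prod_insert ha]
      rfl
    rw [e, Finset.prod_insert ha]
    exact h1.mul h2

/-- The unit `exp (2πi/ℓ)` of `ℂ`. -/
def KH_zetaU (ℓ : ℕ) : ℂˣ := Units.mk0 (Complex.exp (2 * π * Complex.I / ℓ)) (Complex.exp_ne_zero _)

theorem KH_zetaU_primitive (ℓ : ℕ) [NeZero ℓ] : IsPrimitiveRoot ((KH_zetaU ℓ : ℂˣ) : ℂ) ℓ :=
  Complex.isPrimitiveRoot_exp ℓ (NeZero.ne ℓ)

theorem KH_twistFactor_eq (ℓ : ℕ) [NeZero ℓ] (b : ℕ) :
    twistFactor ((b : ℕ) : ℤ) ℓ 1 = ((KH_zetaU ℓ : ℂˣ) : ℂ) ^ b := by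
  unfold twistFactor KH_zetaU
  rw [Units.val_mk0, ← Complex.exp_nat_mul]
  congr 1
  have hℓ : (ℓ : ℂ) ≠ 0 := by exact_mod_cast NeZero.ne ℓ
  push_cast
  field_simp

theorem KH_twist_eq_infTwist (ℓ : ℕ) [NeZero ℓ] (b : ℕ) (g : LaurentSeries ℂ) :
    twist (twistFactor ((b : ℕ) : ℤ) ℓ 1) (twistFactor_ne_zero _ _ _) g
      = infTwist (KH_zetaU ℓ ^ b) g := by
  ext n
  rw [twist_coeff, infTwist_coeff, KH_twistFactor_eq, mul_comm, Units.val_zpow_eq_zpow_val,
    Units.val_pow_eq_pow_val]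

/-- **KRON-AN**: the `q`-expansion of the Hecke product is the Kronecker norm. -/
theorem KH_qexp_prod {G : ℍ → ℂ} {g : LaurentSeries ℂ} (hG : HasQExp 1 G g)
    {h : LaurentSeries ℂ}
    (hH : HasQExp 1 (fun τ => ∏ i : Option (Fin ℓ), G (KH_act ℓ i τ)) h) :
    h = Fermat.Agent.S37.H400.kronNorm ℓ g := by
  classical
  let φ : Option (Fin ℓ) → LaurentSeries ℂ := fun i =>
    match i with
    | none => qExpand ℂ ℓ (qExpand ℂ ℓ g)
    | some b => twist (twistFactor ((b : ℕ) : ℤ) ℓ 1) (twistFactor_ne_zero _ _ _) g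
  have hφ : ∀ i ∈ (Finset.univ : Finset (Option (Fin ℓ))),
      HasQExp ℓ (fun τ => G (KH_act ℓ i τ)) (φ i) := by
    intro i _
    cases i with
    | none => exact KH_hasQExp_none hG
    | some b => exact KH_hasQExp_some hG b
  have hprod := KH_hasQExp_prod (h := ℓ) Finset.univ (fun i τ => G (KH_act ℓ i τ)) φ hφ
  have e1 : ∏ i : Option (Fin ℓ), φ i
      = qExpand ℂ ℓ (Fermat.Agent.S37.H400.kronNorm ℓ g) := by
    rw [Fintype.prod_option, Fermat.Agent.S37.H400.kronNorm, map_mul,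
      Fermat.Agent.S37.H819.qExpand_det_secMat ℓ (KH_zetaU ℓ) (KH_zetaU_primitive ℓ) g]
    congr 1
    rw [← Fin.prod_univ_eq_prod_range (fun b : ℕ => infTwist (KH_zetaU ℓ ^ b) g) ℓ]
    refine Finset.prod_congr rfl fun b _ => ?_
    exact KH_twist_eq_infTwist ℓ b g
  rw [e1] at hprod
  have hH' := hH.of_period_mul ℓ
  simp only [one_mul] at hH'
  exact qExpand_injective ℓ (hH'.unique hprod)

end Fermat.Agent.S29.H989

end
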