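import Fermat.Agent.S29.H989.KHQExp
import Fermat.Agent.S29.M4b.Top
import Fermat.Agent.S29.M4b.H822.K4Basic
import Fermat.Agent.S29.HI
import Fermat.Agent.S29.H455.KummerCorr

/-!
# S29 / M4b / PIECE K4-HECKE (helper989): Hecke equivariance of the Kummer relation

`pieceHecke N p hp : M4b.PieceHecke N p` for every level `N` and modulus `p ≠ 0`:
if `x` is the Kummer class of the character `c` (`IsKum N p c x`, data `(f, t, U)`) then
`T_ℓ x` is the Kummer class of the transfer `c'` of `c`, with data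
`(Nm_α (β f), Nm_α (β t), τ ↦ ∏ᵢ U (αᵢ τ))`.

* algebraic half: `H455.IsKummerClass.correspondence` + the Hecke inputs `HI`;
* `q`-expansion: `S37.H819.normId` (formal Kronecker norm) + `KH_qexp_prod` (KRON-AN);
* goodness: `KH_prod_mem_goodRing` (height lemma + uniform bound on the fundamental domain);
* character: `KH_hasChar_prod`.
-/

set_option autoImplicit false
set_option linter.style.haveILetI false
set_option linter.unusedSectionVars false

noncomputable section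

open ModularCurve AlgebraicCurve CongruenceSubgroup UpperHalfPlane
open scoped MatrixGroups Manifold

namespace Fermat.Agent.S29.H989

open Fermat.Agent.S24 Fermat.Agent.S24.H648 Fermat.Agent.S24.H708 Fermat.Agent.S29
  Fermat.Agent.S29.M4b

variable {N : ℕ} [NeZero N] {p : ℕ}

theorem KH_zetaP_pow_sum [NeZero p] {ι : Type*} (s : Finset ι) (a : ι → ZMod p) :
    ∏ i ∈ s, zetaP p ^ (a i).val = zetaP p ^ (∑ i ∈ s, a i).val := by
  classical
  induction s using Finset.induction_on with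
  | empty => simp
  | insert b s hb ih =>
    rw [Finset.prod_insert hb, Finset.sum_insert hb, ih, H822.zetaP_pow_val_add]

/-- The Hecke product of a function of character `c` has character the transfer of `c`. -/
theorem KH_hasChar_prod [NeZero p] {ℓ : ℕ} [NeZero ℓ]
    (hfac : ∀ γ : G0 N, ∃ (pm : Equiv.Perm (Option (Fin ℓ))) (δ : Option (Fin ℓ) → G0 N),
      ∀ i, IsHeckeFactor ℓ γ i (pm i, δ i))
    {c c' : G0 N → ZMod p} (htr : IsTransfer N ℓ c c') {U : ℍ → ℂ} (hU : HasChar N p c U) :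
    HasChar N p c' (fun τ => ∏ i : Option (Fin ℓ), U (KH_act ℓ i τ)) := by
  intro γ τ
  obtain ⟨pm, δ, hpm⟩ := hfac γ
  have h1 : ∀ i, U (KH_act ℓ i ((γ : SL(2, ℤ)) • τ))
      = zetaP p ^ (c (δ i)).val * U (KH_act ℓ (pm i) τ) := by
    intro i
    rw [KH_act_factor (hpm i) τ]
    exact hU (δ i) _
  show ∏ i : Option (Fin ℓ), U (KH_act ℓ i ((γ : SL(2, ℤ)) • τ))
    = zetaP p ^ (c' γ).val * ∏ i : Option (Fin ℓ), U (KH_act ℓ i τ)
  rw [Finset.prod_congr rfl (fun i _ => h1 i), Finset.prod_mul_distrib,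
    Equiv.prod_comp pm (fun j => U (KH_act ℓ j τ)), KH_zetaP_pow_sum, htr γ pm δ hpm]

/-- **PIECE `K4-HECKE`** (skeleton shape, `ℓ ∤ N` suffices). -/
theorem KH_isKum_hecke (N : ℕ) [NeZero N] (p : ℕ) [NeZero p] (ℓ : Nat.Primes)
    (hℓN : ¬ (ℓ : ℕ) ∣ N)
    (hfac : ∀ γ : G0 N, ∃ (pm : Equiv.Perm (Option (Fin (ℓ : ℕ))))
      (δ : Option (Fin (ℓ : ℕ)) → G0 N), ∀ i, IsHeckeFactor (ℓ : ℕ) γ i (pm i, δ i))
    {c c' : G0 N → ZMod p} (htr : IsTransfer N (ℓ : ℕ) c c')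
    {x : JZero N} (hx : IsKum N p c x) : IsKum N p c' (heckeOperatorBar N ℓ x) := by
  haveI : NeZero (ℓ : ℕ) := ⟨ℓ.2.ne_zero⟩
  obtain ⟨f, t, U, ht, hk, hU, hR⟩ := hx
  obtain ⟨hα, hβ, hP, hfin, hFI, hN⟩ := heckeInputsAlong_bar N (ℓ : ℕ) ℓ.2
  haveI := hP
  -- the new data
  have ht' : H455.normAlong (heckeAlphaBar Kbar N ℓ) (heckeBetaBar Kbar N ℓ t) ≠ 0 :=
    H455.normAlong_ne_zero _ hfin ((map_ne_zero (heckeBetaBar Kbar N ℓ)).mpr ht)
  have hk' : H455.IsKummerClass (p : ℤ)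
      (H455.normAlong (heckeAlphaBar Kbar N ℓ) (heckeBetaBar Kbar N ℓ f))
      (heckeOperatorBar N ℓ x) := by
    have h := hk.correspondence (heckeBetaBar Kbar N ℓ) (heckeAlphaBar Kbar N ℓ) hβ hα hFI hfin hN
    rw [heckeOperatorBar_apply, heckeOperatorAlong_eq hα hβ hFI hfin hN]
    exact h
  -- goodness and `q`-expansion of the product
  have hG : (fun τ => U τ ^ p) ∈ goodRing N := hU.pow_mem
  have hGq := H822.realises_hasQExp hR
  have hH : (fun τ => ∏ i : Option (Fin (ℓ : ℕ)), (fun τ => U τ ^ p) (KH_act ℓ i τ)) ∈ goodRing N :=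
    KH_prod_mem_goodRing hfac hG
  have e : (fun τ => (∏ i : Option (Fin (ℓ : ℕ)), U (KH_act ℓ i τ)) ^ p)
      = fun τ => ∏ i : Option (Fin (ℓ : ℕ)), (fun τ => U τ ^ p) (KH_act ℓ i τ) := by
    funext τ
    exact (Finset.prod_pow _ _ _).symm
  have hHq := H882.hasQExp_of_mem_goodRing hH
  have hq := KH_qexp_prod hGq hHq
  have hnorm : H455.normAlong (heckeAlphaBar Kbar N ℓ) (heckeBetaBar Kbar N ℓ f)
      * H455.normAlong (heckeAlphaBar Kbar N ℓ) (heckeBetaBar Kbar N ℓ t) ^ p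
      = H455.normAlong (heckeAlphaBar Kbar N ℓ) (heckeBetaBar Kbar N ℓ (f * t ^ p)) := by
    rw [map_mul, map_pow, H455.normAlong_mul, H455.normAlong_pow]
  have hReal : Realises N
      (H455.normAlong (heckeAlphaBar Kbar N ℓ) (heckeBetaBar Kbar N ℓ f)
        * H455.normAlong (heckeAlphaBar Kbar N ℓ) (heckeBetaBar Kbar N ℓ t) ^ p)
      (fun τ => (∏ i : Option (Fin (ℓ : ℕ)), U (KH_act ℓ i τ)) ^ p) := by
    rw [e]
    refine ⟨hH, ?_⟩
    rw [hq, hnorm, ← Fermat.Agent.S37.H400.coeffMap_kronNorm]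
    congr 1
    exact (Fermat.Agent.S37.H819.normId N ℓ ℓ.2 hℓN (f * t ^ p)).symm
  refine ⟨_, _, fun τ => ∏ i : Option (Fin (ℓ : ℕ)), U (KH_act ℓ i τ), ht', hk', ?_, hReal⟩
  refine ⟨KH_mdiff_prod Finset.univ (fun i τ => U (KH_act ℓ i τ))
      (fun i _ => KH_mdiff_comp_act hU.mdiff ℓ i), ?_, KH_hasChar_prod hfac htr hU.hasChar, ?_⟩
  · have hne := H822.realises_ne_zero hReal (mul_ne_zero hk'.ne_zero (pow_ne_zero p ht'))
    obtain ⟨τ, hτ⟩ := H822.exists_ne_zero_of_ne_zero hne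
    refine ⟨τ, fun h0 => hτ ?_⟩
    show (∏ i : Option (Fin (ℓ : ℕ)), U (KH_act ℓ i τ)) ^ p = 0
    rw [h0, zero_pow (NeZero.ne p)]
  · rw [e]
    exact hH

/-- **PIECE `K4-HECKE`**, exact `Prop` of `M4b/Top.lean`. -/
theorem pieceHecke (N : ℕ) [NeZero N] (p : ℕ) (hp : p ≠ 0) : PieceHecke N p := by
  haveI : NeZero p := ⟨hp⟩
  intro ℓ hℓ hfac c c' _ htr x hx
  exact KH_isKum_hecke N p ℓ (fun h => hℓ (Dvd.dvd.mul_right h p)) hfac htr hx

end Fermat.Agent.S29.H989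

end
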